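import Fermat.Agent.EqualDivisorsUpper.Levels
import Mathlib.Analysis.PSeries

/-!
# Euler products over coprime pairs

For nonnegative multiplicative `f` and `g` of moderate growth the sum of `f a g b` over the coprime
pairs made of the primes `≤ z`, with the weights of the sieve and a small tilt, is at most a
constant times `exp (∑_{p ≤ z} (f p + g p - 2) / p)`.
-/

set_option autoImplicit false

noncomputable section

namespace FA.MultiplicativeCorrelations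

open Finset
open FA.ErdosKac (primesUpTo mem_primesUpTo)
open FA.EqualDivisorsUpper

/-- Multiplicative, nonnegative, `≤ A ^ l` at `p ^ l` and `≤ B n ^ (1 / 128)`. -/
structure IsTame (A B : ℝ) (f : ℕ → ℝ) : Prop where
  nonneg : ∀ n, 0 ≤ f n
  one : f 1 = 1
  mul : ∀ m n : ℕ, m.Coprime n → f (m * n) = f m * f n
  primePow : ∀ p l : ℕ, p.Prime → f (p ^ l) ≤ A ^ l
  growth : ∀ n : ℕ, 0 < n → f n ≤ B * (n : ℝ) ^ (1 / 128 : ℝ)

variable {A B : ℝ} {f g : ℕ → ℝ}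

theorem IsTame.one_le (hf : IsTame A B f) : 1 ≤ B := by
  simpa [hf.one] using hf.growth 1 one_pos

theorem IsTame.map_prime_le (hf : IsTame A B f) {p : ℕ} (hp : p.Prime) : f p ≤ A := by
  simpa using hf.primePow p 1 hp

theorem IsTame.map_prod_pow (hf : IsTame A B f) {S : Finset ℕ} (hS : ∀ p ∈ S, p.Prime)
    (v : ℕ → ℕ) : f (∏ p ∈ S, p ^ v p) = ∏ p ∈ S, f (p ^ v p) := by
  induction S using Finset.induction_on with
  | empty => simp [hf.one]
  | insert q S hq ih =>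
    have hS' : ∀ p ∈ S, p.Prime := fun p hp => hS p (mem_insert_of_mem hp)
    rw [prod_insert hq, prod_insert hq, hf.mul _ _ (Nat.Coprime.prod_right fun p hp =>
      Nat.Coprime.pow _ _ ((Nat.coprime_primes (hS q (mem_insert_self q S)) (hS' p hp)).2
        fun h => hq (h ▸ hp))), ih hS']

theorem IsTame.eq_prod (hf : IsTame A B f) {S : Finset ℕ} (hS : ∀ p ∈ S, p.Prime) {n : ℕ}
    (hn : 0 < n) (h : n.primeFactors ⊆ S) : f n = ∏ p ∈ S, f (p ^ n.factorization p) := by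
  conv_lhs => rw [← part_eq_self hn h]
  exact hf.map_prod_pow hS _

/-- The primes outside `S` cost at most `A` each. -/
theorem IsTame.le_part (hf : IsTame A B f) {S : Finset ℕ} (hS : ∀ p ∈ S, p.Prime)
    {n : ℕ} (hn : 0 < n) :
    f n ≤ f (part S n) * A ^ (∑ p ∈ n.primeFactors \ S, n.factorization p) := by
  have hU : ∀ p ∈ n.primeFactors ∪ S, p.Prime := fun p hp =>
    (mem_union.1 hp).elim Nat.prime_of_mem_primeFactors (hS p)
  rw [hf.eq_prod hU hn subset_union_left, part, hf.map_prod_pow hS,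
    ← prod_sdiff (subset_union_right (s₁ := n.primeFactors) (s₂ := S)), union_sdiff_right,
    mul_comm, ← prod_pow_eq_pow_sum]
  exact mul_le_mul_of_nonneg_left (prod_le_prod (fun p _ => hf.nonneg _) fun p hp =>
    hf.primePow p _ (Nat.prime_of_mem_primeFactors (mem_sdiff.1 hp).1))
    (prod_nonneg fun p _ => hf.nonneg _)

/-- The value of `(f, g)` at a choice. -/
def optFac (f g : ℕ → ℝ) (p : ℕ) : Option (Bool × ℕ) → ℝ
  | none => 1
  | some (true, e) => f (p ^ e)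
  | some (false, e) => g (p ^ e)

theorem prod_optFac_code (hf : IsTame A B f) (hg : IsTame A B g) {P : Finset ℕ}
    (hP : ∀ p ∈ P, p.Prime) {E : ℕ} {q : ℕ × ℕ} (hq : q ∈ pairs P E) :
    ∏ p ∈ P, optFac f g p (code q.1 q.2 p) = f q.1 * g q.2 := by
  obtain ⟨⟨ha, -⟩, ⟨hb, -⟩, hab, haP, hbP⟩ := mem_pairs.1 hq
  rw [hf.eq_prod hP ha haP, hg.eq_prod hP hb hbP, ← prod_mul_distrib]
  refine prod_congr rfl fun p hp => ?_
  obtain ⟨h1, h2⟩ := exp_code hab (hP p hp)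
  rw [← h1, ← h2]
  rcases code q.1 q.2 p with _ | ⟨s, e⟩
  · simp [optFac, leftExp, rightExp, hf.one, hg.one]
  · cases s <;> simp [optFac, leftExp, rightExp, hf.one, hg.one]

theorem two_mul_tilt_le {T i : ℕ} (h : 2 * T ≤ 2 ^ i) : (T : ℝ) * tilt i ≤ 1 / 8 := by
  have : (2 : ℝ) * T ≤ 2 ^ i := by exact_mod_cast h
  rw [tilt, mul_one_div, div_le_iff₀ (by positivity)]
  linarith

theorem rpow_le_three_quarters {p : ℕ} (hp : p.Prime) : (p : ℝ) ^ (-(3 / 4) : ℝ) ≤ 3 / 4 := by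
  refine le_trans (Real.rpow_le_rpow_of_nonpos two_pos (Nat.ofNat_le_cast.2 hp.two_le)
    (by norm_num)) ?_
  refine (pow_le_pow_iff_left₀ (Real.rpow_nonneg two_pos.le _) (by norm_num)
    (show (4 : ℕ) ≠ 0 by norm_num)).1 ?_
  rw [← Real.rpow_natCast ((2 : ℝ) ^ (-(3 / 4) : ℝ)), ← Real.rpow_mul two_pos.le]
  norm_num [Real.rpow_neg]

theorem rpow_mul_tilt_le {T i p : ℕ} (hp : p ≤ level (i + 1)) :
    (p : ℝ) ^ ((T : ℝ) * tilt i) ≤ (3 / 2) ^ T := by
  rw [mul_comm, Real.rpow_mul_natCast (Nat.cast_nonneg p)]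
  exact pow_le_pow_left₀ (Real.rpow_nonneg (Nat.cast_nonneg p) _) (rpow_tilt_le hp) T

/-- One prime. -/
theorem sum_opts_weight_le (hf : IsTame A B f) (hg : IsTame A B g) {t : ℝ} {Q : ℝ} {p E : ℕ}
    (hp : p.Prime) (ht : 0 ≤ t) (ht' : t ≤ 1 / 8) (hQ : (p : ℝ) ^ t ≤ Q) :
    ∑ o ∈ opts E, optWeight (1 - 2 / (p : ℝ)) t p o * optFac f g p o ≤
      Real.exp ((f p + g p - 2) / p + 2 * A * Q * (t * (Real.log p / p)) +
        8 * B * (p : ℝ) ^ (-(3 / 2) : ℝ)) := by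
  have hp1 : (1 : ℝ) ≤ p := Nat.one_le_cast.2 hp.one_le
  have hp0 : (0 : ℝ) < p := by linarith
  have hB := hf.one_le
  obtain ⟨u, hu⟩ : ∃ u, u = (p : ℝ) ^ (t - 1) := ⟨_, rfl⟩
  obtain ⟨v, hv⟩ : ∃ v, v = (p : ℝ) ^ (-(3 / 4) : ℝ) := ⟨_, rfl⟩
  have hu0 : 0 ≤ u := hu ▸ Real.rpow_nonneg hp0.le _
  have hv0 : 0 ≤ v := hv ▸ Real.rpow_nonneg hp0.le _
  have hv34 : v ≤ 3 / 4 := hv ▸ rpow_le_three_quarters hp
  have hterm : ∀ {h : ℕ → ℝ}, IsTame A B h → ∀ e, 0 < e → u ^ e * h (p ^ e) ≤ B * v ^ e :=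
    fun {h} hh e _ => by
      refine (mul_le_mul_of_nonneg_left (hh.growth _ (pow_pos hp.pos e))
        (pow_nonneg hu0 e)).trans ?_
      rw [Nat.cast_pow, ← Real.rpow_pow_comm hp0.le, mul_left_comm, ← mul_pow, hu,
        ← Real.rpow_add hp0, hv]
      refine mul_le_mul_of_nonneg_left (pow_le_pow_left₀ (Real.rpow_nonneg hp0.le _)
        (Real.rpow_le_rpow_of_exponent_le hp1 (by linarith)) e) (by linarith)
  have hv2 : v ^ 2 = (p : ℝ) ^ (-(3 / 2) : ℝ) := by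
    rw [hv, ← Real.rpow_mul_natCast hp0.le]
    norm_num
  rw [opts, sum_insertNone, sum_product_right]
  simp only [Fintype.sum_bool, optWeight, optFac, mul_one, ← hu]
  have hnn : ∀ e, 0 ≤ u ^ e * f (p ^ e) + u ^ e * g (p ^ e) := fun e =>
    add_nonneg (mul_nonneg (pow_nonneg hu0 e) (hf.nonneg _))
      (mul_nonneg (pow_nonneg hu0 e) (hg.nonneg _))
  have hsum : ∑ e ∈ Icc 1 E, (u ^ e * f (p ^ e) + u ^ e * g (p ^ e)) ≤
      u * (f p + g p) + 8 * B * (p : ℝ) ^ (-(3 / 2) : ℝ) := by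
    refine (sum_le_sum_of_subset_of_nonneg (t := insert 1 (Ico 2 (E + 1))) (fun e he => ?_)
      fun e _ _ => hnn e).trans ?_
    · rw [mem_Icc] at he
      rw [mem_insert, mem_Ico]
      omega
    rw [sum_insert (by simp), pow_one, pow_one, mul_add]
    refine add_le_add le_rfl ((sum_le_sum (g := fun e => 2 * B * v ^ e) fun e he => ?_).trans ?_)
    · have he2 : 0 < e := lt_of_lt_of_le two_pos (mem_Ico.1 he).1
      linarith [hterm hf e he2, hterm hg e he2]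
    · rw [← mul_sum]
      refine (mul_le_mul_of_nonneg_left (geom_sum_Ico_le_of_lt_one hv0 (by linarith))
        (by linarith)).trans ?_
      rw [hv2, ← mul_div_assoc, div_le_iff₀ (by linarith)]
      nlinarith [mul_nonneg (show 0 ≤ B by linarith)
        (Real.rpow_nonneg hp0.le (-(3 / 2) : ℝ))]
  have hq : (p : ℝ) ^ t - 1 ≤ Q * (t * Real.log p) := by
    obtain ⟨w, hw⟩ : ∃ w, w = t * Real.log p := ⟨_, rfl⟩
    have e : Real.exp w = (p : ℝ) ^ t := by
      rw [hw, Real.rpow_def_of_pos hp0, mul_comm]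
    have h2 := mul_le_mul_of_nonneg_left (show 1 - w ≤ Real.exp (-w) by
      linarith [Real.add_one_le_exp (-w)]) (Real.exp_nonneg w)
    rw [← Real.exp_add, add_neg_cancel, Real.exp_zero, e] at h2
    have h3 := mul_le_mul_of_nonneg_right hQ (hw ▸ mul_nonneg ht (Real.log_nonneg hp1) : 0 ≤ w)
    rw [← hw]
    linarith
  refine le_trans ?_ (Real.add_one_le_exp _)
  have hu1 : u * (f p + g p) =
      (f p + g p) / p + (f p + g p) * (((p : ℝ) ^ t - 1) / p) := by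
    rw [hu, Real.rpow_sub hp0, Real.rpow_one]
    ring
  have hA : (f p + g p) * (((p : ℝ) ^ t - 1) / p) ≤ 2 * A * Q * (t * (Real.log p / p)) := by
    refine (mul_le_mul (add_le_add (hf.map_prime_le hp) (hg.map_prime_le hp))
      (div_le_div_of_nonneg_right hq hp0.le)
      (div_nonneg (sub_nonneg.2 (Real.one_le_rpow hp1 ht)) hp0.le)
      (by linarith [(hf.nonneg p).trans (hf.map_prime_le hp)])).trans (le_of_eq ?_)
    ring
  have h2 : (f p + g p - 2) / (p : ℝ) = (f p + g p) / p - 2 / p := sub_div _ _ _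
  linarith

/-- **The Euler product at a level.** -/
theorem exists_euler_le (hA : 0 ≤ A) (hB : 0 ≤ B) (T : ℕ) : ∃ C : ℝ, 0 < C ∧
    ∀ f g : ℕ → ℝ, IsTame A B f → IsTame A B g → ∀ i E : ℕ, 2 * T ≤ 2 ^ i →
    ∑ q ∈ pairs (primesUpTo (level i)) E, f q.1 * g q.2 *
        ((∏ p ∈ primesUpTo (level i), localDensity (q.1 * q.2) p) *
          ((q.1 * q.2 : ℕ) : ℝ) ^ ((T : ℝ) * tilt i - 1)) ≤
      C * Real.exp (∑ p ∈ primesUpTo (level i), (f p + g p) / p) / 4 ^ (i + 1) := by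
  obtain ⟨K, hK0, hK⟩ := exists_sum_prime_bound
  obtain ⟨S₀, hS₀⟩ : ∃ S, S = ∑' n : ℕ, (n : ℝ) ^ (-(3 / 2) : ℝ) := ⟨_, rfl⟩
  refine ⟨Real.exp (2 * K + 2 * A * (3 / 2) ^ T * (T * K) + 8 * B * S₀), Real.exp_pos _,
    fun f g hf hg i E hi => ?_⟩
  obtain ⟨P, hPdef⟩ : ∃ P, P = primesUpTo (level i) := ⟨_, rfl⟩
  have hP : ∀ p ∈ P, p.Prime := fun p hp => (mem_primesUpTo.1 (hPdef ▸ hp)).1
  obtain ⟨t, ht⟩ : ∃ t, t = (T : ℝ) * tilt i := ⟨_, rfl⟩
  have ht0 : 0 ≤ t := ht ▸ mul_nonneg (Nat.cast_nonneg T) (tilt_pos i).le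
  have ht8 : t ≤ 1 / 8 := ht ▸ two_mul_tilt_le hi
  rw [← hPdef, ← ht]
  have hω : ∀ p ∈ P, ∀ o, 0 ≤ optWeight (1 - 2 / (p : ℝ)) t p o * optFac f g p o :=
    fun p hp o => by
      rcases o with _ | ⟨s, e⟩
      · rw [optWeight, optFac, mul_one, sub_nonneg, div_le_one (Nat.cast_pos.2 (hP p hp).pos)]
        exact_mod_cast (hP p hp).two_le
      · refine mul_nonneg (pow_nonneg (Real.rpow_nonneg (Nat.cast_nonneg p) _) _) ?_
        cases s
        · exact hg.nonneg _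
        · exact hf.nonneg _
  refine le_trans (le_of_eq (sum_congr rfl fun q hq => ?_)) ((sum_pairs_le hP E
    (Φ := fun σ => ∏ p ∈ P.attach,
      optWeight (1 - 2 / (p.1 : ℝ)) t p.1 (σ p.1 p.2) * optFac f g p.1 (σ p.1 p.2))
    fun σ => prod_nonneg fun p _ => hω _ p.2 _).trans ?_)
  · rw [prod_attach P fun p =>
      optWeight (1 - 2 / (p : ℝ)) t p (code q.1 q.2 p) * optFac f g p (code q.1 q.2 p),
      prod_mul_distrib, prod_optWeight_code hP hq, prod_optFac_code hf hg hP hq, mul_comm]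
    simp only [localDensity]
  rw [← prod_sum P (fun _ => opts E) fun p o =>
    optWeight (1 - 2 / (p : ℝ)) t p o * optFac f g p o]
  refine (prod_le_prod (fun p hp => sum_nonneg fun o _ => hω p hp o) fun p hp =>
    sum_opts_weight_le hf hg (hP p hp) ht0 ht8 (ht ▸ rpow_mul_tilt_le (T := T)
      ((mem_primesUpTo.1 (hPdef ▸ hp)).2.trans
        (Nat.pow_le_pow_right two_pos (Nat.pow_le_pow_right two_pos (Nat.le_succ i)))))).trans ?_
  rw [← Real.exp_sum, sum_add_distrib, sum_add_distrib, ← mul_sum, ← mul_sum, ← mul_sum]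
  obtain ⟨hlo, hhi, -⟩ := hK i
  rw [← hPdef] at hlo hhi
  have h1 : t * ∑ p ∈ P, Real.log p / p ≤ T * K := by
    rw [sum_add_distrib, ← mul_sum, ← mul_sum] at hhi
    have h32 : (0 : ℝ) ≤ ∑ p ∈ P, 162 / (p : ℝ) ^ 2 := sum_nonneg fun p _ => by positivity
    rw [ht, mul_assoc]
    exact mul_le_mul_of_nonneg_left (by linarith) (Nat.cast_nonneg T)
  have h2 : ∑ p ∈ P, (p : ℝ) ^ (-(3 / 2) : ℝ) ≤ S₀ := hS₀ ▸
    (Real.summable_nat_rpow.2 (by norm_num)).sum_le_tsum P fun n _ =>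
      Real.rpow_nonneg (Nat.cast_nonneg n) _
  have h3 : ∑ p ∈ P, (f p + g p - 2) / (p : ℝ) ≤
      ∑ p ∈ P, (f p + g p) / (p : ℝ) - 2 * ((i + 1) * Real.log 2 - K) := by
    simp only [sub_div, sum_sub_distrib]
    rw [show ∑ p ∈ P, 2 / (p : ℝ) = 2 * ∑ p ∈ P, (p : ℝ)⁻¹ by rw [mul_sum]; rfl]
    linarith
  have h4 : (4 : ℝ) ^ (i + 1) = Real.exp (2 * ((i + 1) * Real.log 2)) := by
    rw [show 2 * (((i : ℝ) + 1) * Real.log 2) = ((i + 1 : ℕ) : ℝ) * (2 * Real.log 2) by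
      push_cast; ring, Real.exp_nat_mul, two_mul, Real.exp_add, Real.exp_log two_pos]
    norm_num
  rw [h4, ← Real.exp_add, ← Real.exp_sub, Real.exp_le_exp]
  have h5 := mul_le_mul_of_nonneg_left h1 (by positivity : 0 ≤ 2 * A * (3 / 2 : ℝ) ^ T)
  have h6 := mul_le_mul_of_nonneg_left h2 (by positivity : 0 ≤ 8 * B)
  linarith

/-- The primes of a band give a bounded factor. -/
theorem exists_band_tilt_le (T : ℕ) : ∃ C : ℝ, 0 < C ∧ ∀ i E : ℕ, 2 * T ≤ 2 ^ i →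
    ∑ q ∈ pairs (primesUpTo (level (i + 1)) \ primesUpTo (level i)) E,
      ((q.1 * q.2 : ℕ) : ℝ) ^ ((T : ℝ) * tilt i - 1) ≤ C := by
  obtain ⟨K, hK0, hK⟩ := exists_sum_prime_bound
  refine ⟨Real.exp (8 * (3 / 2) ^ T * K), Real.exp_pos _, fun i E hi => ?_⟩
  obtain ⟨P, hPdef⟩ : ∃ P, P = primesUpTo (level (i + 1)) \ primesUpTo (level i) := ⟨_, rfl⟩
  have hP : ∀ p ∈ P, p.Prime ∧ p ≤ level (i + 1) := fun p hp =>
    mem_primesUpTo.1 (mem_sdiff.1 (hPdef ▸ hp)).1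
  obtain ⟨t, ht⟩ : ∃ t, t = (T : ℝ) * tilt i := ⟨_, rfl⟩
  rw [← hPdef, ← ht]
  have hω : ∀ (p : ℕ) (o : Option (Bool × ℕ)), 0 ≤ optWeight 1 t p o := fun p o => by
    cases o with
    | none => exact zero_le_one
    | some o => exact pow_nonneg (Real.rpow_nonneg (Nat.cast_nonneg p) _) _
  refine le_trans (le_of_eq (sum_congr rfl fun q hq => ?_))
    ((sum_pairs_le (fun p hp => (hP p hp).1) E
      (Φ := fun σ => ∏ p ∈ P.attach, optWeight 1 t p.1 (σ p.1 p.2))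
      fun σ => prod_nonneg fun p _ => hω _ _).trans ?_)
  · rw [prod_attach P fun p => optWeight 1 t p (code q.1 q.2 p),
      prod_optWeight_code (fun p hp => (hP p hp).1) hq fun _ => 1]
    simp
  rw [← prod_sum]
  refine (prod_le_prod (g := fun p : ℕ => Real.exp (8 * (3 / 2) ^ T * (p : ℝ)⁻¹))
    (fun p _ => sum_nonneg fun o _ => hω p o) fun p hp => ?_).trans ?_
  · have hp0 : (0 : ℝ) < p := Nat.cast_pos.2 (hP p hp).1.pos
    obtain ⟨u, hu⟩ : ∃ u, u = (p : ℝ) ^ (t - 1) := ⟨_, rfl⟩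
    have hu0 : 0 ≤ u := hu ▸ Real.rpow_nonneg hp0.le _
    have huQ : u ≤ (3 / 2) ^ T * (p : ℝ)⁻¹ := by
      rw [hu, Real.rpow_sub hp0, Real.rpow_one, ← div_eq_mul_inv]
      exact div_le_div_of_nonneg_right (ht ▸ rpow_mul_tilt_le (hP p hp).2) hp0.le
    have hu34 : u ≤ 3 / 4 := hu ▸ (Real.rpow_le_rpow_of_exponent_le
      (Nat.one_le_cast.2 (hP p hp).1.one_le) (by linarith [two_mul_tilt_le hi])).trans
        (rpow_le_three_quarters (hP p hp).1)
    rw [opts, sum_insertNone, sum_product_right]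
    simp only [Fintype.sum_bool, optWeight, ← two_mul, ← mul_sum, ← hu]
    have h := geom_sum_Ico_le_of_lt_one (m := 1) (n := E + 1) hu0 (by linarith)
    rw [Ico_add_one_right_eq_Icc, pow_one] at h
    refine le_trans ?_ (Real.add_one_le_exp _)
    have h4 : u / (1 - u) ≤ 4 * (3 / 2) ^ T * (p : ℝ)⁻¹ := by
      refine (div_le_div₀ (by positivity) huQ (by norm_num : (0 : ℝ) < 1 / 4)
        (by linarith)).trans (le_of_eq ?_)
      ring
    linarith
  · rw [← Real.exp_sum, Real.exp_le_exp, ← mul_sum]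
    exact mul_le_mul_of_nonneg_left (hPdef ▸ (hK i).2.2) (by positivity)

/-- Numbers `≤ x` with a large part of bounded primes are few. -/
theorem exists_card_smooth_large_le (L : ℕ) : ∃ C : ℝ, 0 < C ∧ ∀ x : ℕ, 1 ≤ x →
    (((Icc 1 x).filter fun n =>
      x < part (primesUpTo L) n ^ 16 ∨ x < part (primesUpTo L) (n + 1) ^ 16).card : ℝ) ≤
      C * (x : ℝ) ^ (31 / 32 : ℝ) := by
  classical
  obtain ⟨P, hPdef⟩ : ∃ P, P = primesUpTo L := ⟨_, rfl⟩
  have hP : ∀ p ∈ P, p.Prime := fun p hp => (mem_primesUpTo.1 (hPdef ▸ hp)).1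
  rw [← hPdef]
  refine ⟨4 * 9 ^ P.card, by positivity, fun x hx => ?_⟩
  have hx0 : (0 : ℝ) < x := Nat.cast_pos.2 hx
  obtain ⟨D, hD⟩ : ∃ D, D =
      (Icc 1 (x + 1)).filter fun d => d.primeFactors ⊆ P ∧ x < d ^ 16 := ⟨_, rfl⟩
  have hsum : ∑ d ∈ D, (d : ℝ) ^ (-(1 / 2) : ℝ) ≤ 9 ^ P.card := by
    have hω : ∀ (p : ℕ) (o : Option (Bool × ℕ)), 0 ≤ optWeight 1 (1 / 2) p o := fun p o => by
      cases o with
      | none => exact zero_le_one
      | some o => exact pow_nonneg (Real.rpow_nonneg (Nat.cast_nonneg p) _) _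
    refine le_trans ?_ ((sum_pairs_le hP (x + 1)
      (Φ := fun σ => ∏ p ∈ P.attach, optWeight 1 (1 / 2) p.1 (σ p.1 p.2))
      fun σ => prod_nonneg fun p _ => hω _ _).trans ?_)
    · refine le_trans (le_of_eq ?_) (sum_le_sum_of_subset_of_nonneg
        (s := D.image fun d => (d, 1)) (fun q hq => ?_) fun q _ _ =>
          prod_nonneg fun p _ => hω _ _)
      · rw [sum_image fun a _ b _ h => (Prod.mk.inj h).1]
        refine sum_congr rfl fun d hd => ?_
        rw [hD, mem_filter, mem_Icc] at hd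
        have hmem : (d, 1) ∈ pairs P (x + 1) := mem_pairs.2
          ⟨hd.1, ⟨one_pos, by omega⟩, Nat.coprime_one_right d, hd.2.1, by simp⟩
        rw [prod_attach P fun p => optWeight 1 (1 / 2) p (code d 1 p),
          prod_optWeight_code hP hmem fun _ => 1]
        norm_num
      · obtain ⟨d, hd, rfl⟩ := mem_image.1 hq
        rw [hD, mem_filter, mem_Icc] at hd
        exact mem_pairs.2 ⟨hd.1, ⟨one_pos, by omega⟩, Nat.coprime_one_right d, hd.2.1, by simp⟩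
    rw [← prod_sum, ← prod_const]
    refine prod_le_prod (fun p _ => sum_nonneg fun o _ => hω p o) fun p hp => ?_
    have hu : (p : ℝ) ^ ((1 : ℝ) / 2 - 1) ≤ 4 / 5 := by
      refine le_trans (Real.rpow_le_rpow_of_nonpos two_pos
        (Nat.ofNat_le_cast.2 (hP p hp).two_le) (by norm_num)) ?_
      refine (pow_le_pow_iff_left₀ (Real.rpow_nonneg two_pos.le _) (by norm_num)
        (show (2 : ℕ) ≠ 0 by norm_num)).1 ?_
      rw [← Real.rpow_natCast ((2 : ℝ) ^ ((1 : ℝ) / 2 - 1)), ← Real.rpow_mul two_pos.le]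
      norm_num [Real.rpow_neg]
    rw [opts, sum_insertNone, sum_product_right]
    simp only [Fintype.sum_bool, optWeight, ← two_mul, ← mul_sum]
    have h := geom_sum_Ico_le_of_lt_one (m := 1) (n := x + 1 + 1)
      (Real.rpow_nonneg (Nat.cast_nonneg p) ((1 : ℝ) / 2 - 1)) (by linarith)
    rw [Ico_add_one_right_eq_Icc, pow_one] at h
    have h4 : (p : ℝ) ^ ((1 : ℝ) / 2 - 1) / (1 - (p : ℝ) ^ ((1 : ℝ) / 2 - 1)) ≤ 4 := by
      rw [div_le_iff₀ (by linarith)]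
      linarith
    linarith
  have hcount : ∀ d ∈ D, (((x + 1) / d : ℕ) : ℝ) ≤
      2 * (x : ℝ) ^ (31 / 32 : ℝ) * (d : ℝ) ^ (-(1 / 2) : ℝ) := fun d hd => by
    rw [hD, mem_filter, mem_Icc] at hd
    have hd0 : (0 : ℝ) < d := Nat.cast_pos.2 hd.1.1
    have h1 : (x : ℝ) ^ (1 / 16 : ℝ) ≤ d := by
      refine (Real.rpow_le_rpow hx0.le (show (x : ℝ) ≤ (d : ℝ) ^ (16 : ℕ) by
        exact_mod_cast hd.2.2.le) (by norm_num)).trans (le_of_eq ?_)
      rw [← Real.rpow_natCast (d : ℝ), ← Real.rpow_mul hd0.le]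
      norm_num
    have h2 := Real.rpow_le_rpow_of_nonpos (Real.rpow_pos_of_pos hx0 _) h1
      (show (-(1 / 2) : ℝ) ≤ 0 by norm_num)
    rw [← Real.rpow_mul hx0.le] at h2
    refine Nat.cast_div_le.trans ?_
    rw [show ((x + 1 : ℕ) : ℝ) / d =
        ((x + 1 : ℕ) : ℝ) * ((d : ℝ) ^ (-(1 / 2) : ℝ) * (d : ℝ) ^ (-(1 / 2) : ℝ)) by
      rw [← Real.rpow_add hd0]; norm_num [Real.rpow_neg_one, div_eq_mul_inv]]
    refine (mul_le_mul (show ((x + 1 : ℕ) : ℝ) ≤ 2 * x by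
      push_cast; linarith [show (1 : ℝ) ≤ x from Nat.one_le_cast.2 hx])
      (mul_le_mul_of_nonneg_right h2 (Real.rpow_nonneg hd0.le _))
      (mul_nonneg (Real.rpow_nonneg hd0.le _) (Real.rpow_nonneg hd0.le _))
      (by positivity)).trans (le_of_eq ?_)
    rw [show (31 / 32 : ℝ) = 1 + 1 / 16 * -(1 / 2) by norm_num, Real.rpow_add hx0,
      Real.rpow_one]
    ring
  have hcard : ((Icc 1 x).filter fun n =>
      x < part P n ^ 16 ∨ x < part P (n + 1) ^ 16).card ≤ 2 * ∑ d ∈ D, (x + 1) / d := by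
    have hmem : ∀ m, 1 ≤ m → m ≤ x + 1 → x < part P m ^ 16 → part P m ∈ D := fun m h1 h2 h3 => by
      rw [hD, mem_filter, mem_Icc]
      exact ⟨⟨part_pos hP m, (part_le_self hP h1).trans h2⟩, primeFactors_part_subset hP m, h3⟩
    have hbase : ((Icc 1 (x + 1)).filter fun n => x < part P n ^ 16).card ≤
        ∑ d ∈ D, (x + 1) / d := by
      refine (card_le_card (t := D.biUnion fun d => (Ioc 0 (x + 1)).filter fun m => d ∣ m)
        fun m hm => ?_).trans (card_biUnion_le.trans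
          (le_of_eq (sum_congr rfl fun d _ => Nat.Ioc_filter_dvd_card_eq_div (x + 1) d)))
      obtain ⟨h1, h3⟩ := mem_filter.1 hm
      obtain ⟨h1, h2⟩ := mem_Icc.1 h1
      exact mem_biUnion.2 ⟨_, hmem m h1 h2 h3,
        mem_filter.2 ⟨mem_Ioc.2 ⟨h1, h2⟩, part_dvd hP h1⟩⟩
    rw [filter_or, two_mul]
    refine (card_union_le _ _).trans (Nat.add_le_add ((card_le_card ?_).trans hbase)
      ((card_le_card_of_injOn (fun n => n + 1) (fun n hn => ?_) fun a _ b _ h => by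
        simpa using h).trans hbase))
    · exact filter_subset_filter _ (Icc_subset_Icc_right (Nat.le_succ x))
    · obtain ⟨h1, h3⟩ := mem_filter.1 hn
      exact mem_filter.2 ⟨mem_Icc.2 ⟨Nat.le_add_left 1 n,
        Nat.add_le_add_right (mem_Icc.1 h1).2 1⟩, h3⟩
  refine (Nat.cast_le.2 hcard).trans ?_
  rw [Nat.cast_mul, Nat.cast_sum]
  refine (mul_le_mul_of_nonneg_left (sum_le_sum hcount) (Nat.cast_nonneg 2)).trans ?_
  rw [← mul_sum]
  push_cast
  nlinarith [mul_le_mul_of_nonneg_left hsum (Real.rpow_nonneg hx0.le (31 / 32 : ℝ))]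

end FA.MultiplicativeCorrelations

end
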