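import Fermat.Agent.MultiplicativeCorrelations.Main
import Fermat.Agent.ShiuBrun.Divisor
import Fermat.Agent.LandauSquares.Constant

/-!
# Examples: powers of the divisor function and sums of two squares

`∑ d (n) ^ k d (n + 1) ^ l ≪ x (log x) ^ (2 ^ k + 2 ^ l - 2)`, and `≪ x / log x` numbers `n ≤ x`
have both `n` and `n + 1` a sum of two squares.
-/

set_option autoImplicit false

noncomputable section

namespace FA.MultiplicativeCorrelations

open Finset
open FA.ErdosKac (primesUpTo mem_primesUpTo recipSum)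
open FA.LandauSquares (sqInd EvenExp evenExp_iff_exists sqInd_nonneg sqInd_le_one sqInd_one
  sqInd_mul sqInd_prime_pow weight weight_nonneg weight_prime_pow)

theorem IsTame.mono {A B A' B' : ℝ} {f : ℕ → ℝ} (hf : IsTame A B f) (hA : 0 ≤ A) (h : A ≤ A')
    (h' : B ≤ B') : IsTame A' B' f where
  nonneg := hf.nonneg
  one := hf.one
  mul := hf.mul
  primePow p l hp := (hf.primePow p l hp).trans (pow_le_pow_left₀ hA h l)
  growth n hn := (hf.growth n hn).trans
    (mul_le_mul_of_nonneg_right h' (Real.rpow_nonneg (Nat.cast_nonneg n) _))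

theorem exists_isTame {f : ℕ → ℝ} (hf : ShiuBrun.ShiuClass f) :
    ∃ A B : ℝ, 1 ≤ A ∧ IsTame A B f := by
  obtain ⟨A, hA, hA'⟩ := hf.primePow
  obtain ⟨B, hB⟩ := hf.growth (1 / 128) (by norm_num)
  exact ⟨A, B, hA, ⟨hf.nonneg, hf.one, hf.mul, hA', hB⟩⟩

theorem exists_correlation_shiuClass {f g : ℕ → ℝ} (hf : ShiuBrun.ShiuClass f)
    (hg : ShiuBrun.ShiuClass g) : ∃ C : ℝ, 0 < C ∧ ∀ x : ℕ, 2 ≤ x →
    ∑ n ∈ Icc 1 x, f n * g (n + 1) ≤
      C * x / Real.log x ^ 2 * Real.exp (∑ p ∈ primesUpTo x, (f p + g p) / p) := by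
  obtain ⟨A, B, hA, h⟩ := exists_isTame hf
  obtain ⟨A', B', hA', h'⟩ := exists_isTame hg
  obtain ⟨C, hC0, hC⟩ := exists_correlation_le (A := max A A') (B := max B B')
    (hA.trans (le_max_left _ _)) ((zero_le_one.trans h.one_le).trans (le_max_left _ _))
  exact ⟨C, hC0, hC f g (h.mono (zero_le_one.trans hA) (le_max_left _ _) (le_max_left _ _))
    (h'.mono (zero_le_one.trans hA') (le_max_right _ _) (le_max_right _ _))⟩

theorem exists_divisor_powers_le (k l : ℕ) : ∃ C : ℝ, 0 < C ∧ ∀ x : ℕ, 2 ≤ x →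
    ∑ n ∈ Icc 1 x, (n.divisors.card : ℝ) ^ k * ((n + 1).divisors.card : ℝ) ^ l ≤
      C * x * Real.log x ^ (2 ^ k + 2 ^ l - 2) := by
  obtain ⟨C, hC0, hC⟩ := exists_correlation_shiuClass (ShiuBrun.shiuClass_divisors_pow k)
    (ShiuBrun.shiuClass_divisors_pow l)
  obtain ⟨K, hK⟩ := ErdosKac.exists_abs_recipSum_sub_le
  refine ⟨C * Real.exp ((2 ^ k + 2 ^ l) * K), mul_pos hC0 (Real.exp_pos _), fun x hx =>
    (hC x hx).trans ?_⟩
  have hlog : 0 < Real.log x := Real.log_pos (Nat.one_lt_cast.2 hx)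
  have h : ∑ p ∈ primesUpTo x, ((p.divisors.card : ℝ) ^ k + (p.divisors.card : ℝ) ^ l) / p =
      (2 ^ k + 2 ^ l) * recipSum x := by
    rw [recipSum, mul_sum]
    exact sum_congr rfl fun p hp => by
      rw [(mem_primesUpTo.1 hp).1.divisors, card_pair (mem_primesUpTo.1 hp).1.ne_one.symm,
        div_eq_mul_inv]
      norm_num
  have he : Real.exp ((2 ^ k + 2 ^ l) * recipSum x) ≤
      Real.exp ((2 ^ k + 2 ^ l) * K) * (Real.log x ^ (2 ^ k + 2 ^ l)) := by
    rw [← Real.exp_log (pow_pos hlog _), ← Real.exp_add, Real.exp_le_exp, Real.log_pow]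
    push_cast
    rw [← mul_add]
    exact mul_le_mul_of_nonneg_left (by linarith [(abs_le.1 (hK x hx)).2]) (by positivity)
  rw [h]
  refine (mul_le_mul_of_nonneg_left he (by positivity)).trans (le_of_eq ?_)
  have e : 2 ^ k + 2 ^ l = 2 + (2 ^ k + 2 ^ l - 2) := by
    have := Nat.one_le_two_pow (n := k)
    have := Nat.one_le_two_pow (n := l)
    omega
  rw [show Real.log x ^ (2 ^ k + 2 ^ l) = Real.log x ^ 2 * Real.log x ^ (2 ^ k + 2 ^ l - 2) by
    rw [← pow_add, ← e]]
  field_simp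

theorem isTame_sqInd : IsTame 1 1 sqInd where
  nonneg := sqInd_nonneg
  one := sqInd_one
  mul _ _ h := sqInd_mul h
  primePow _ l _ := by rw [one_pow]; exact sqInd_le_one _
  growth n hn := by
    rw [one_mul]
    exact (sqInd_le_one n).trans (Real.one_le_rpow (Nat.one_le_cast.2 hn) (by norm_num))

/-- Partial summation against `1 / log p`. -/
theorem sum_div_prime_le {a : ℕ → ℝ} {K : ℝ}
    (h : ∀ n, 2 ≤ n → ∑ p ∈ primesUpTo n, a p * (Real.log p / p) ≤ K) {n : ℕ} (hn : 2 ≤ n) :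
    ∑ p ∈ primesUpTo n, a p / p ≤ K / Real.log 2 := by
  obtain ⟨D, hD⟩ : ∃ D : ℕ → ℝ, D = fun n => ∑ p ∈ primesUpTo n, a p * (Real.log p / p) :=
    ⟨_, rfl⟩
  have hl : ∀ m : ℕ, 2 ≤ m → 0 < Real.log m := fun m hm =>
    Real.log_pos (Nat.one_lt_cast.2 hm)
  suffices H : ∀ m, 2 ≤ m → ∑ p ∈ primesUpTo m, a p / p ≤
      D m / Real.log m + K * (1 / Real.log 2 - 1 / Real.log m) by
    refine (H n hn).trans ?_
    have h1 : D n / Real.log n ≤ K / Real.log n :=
      div_le_div_of_nonneg_right (hD ▸ h n hn) (hl n hn).le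
    rw [mul_sub, ← mul_div_assoc, ← mul_div_assoc, mul_one]
    linarith
  intro m hm
  induction m, hm using Nat.le_induction with
  | base =>
    have e : primesUpTo 2 = {2} := by decide
    have h2 : Real.log 2 ≠ 0 := (Real.log_pos one_lt_two).ne'
    refine le_of_eq ?_
    rw [hD]
    dsimp only
    rw [e]
    simp only [sum_singleton, Nat.cast_ofNat, sub_self, mul_zero, add_zero]
    field_simp
  | succ m hm ih =>
    have h0 := hl m hm
    have h1 := hl (m + 1) (by omega)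
    have hmono : Real.log m ≤ Real.log (m + 1 : ℕ) :=
      Real.log_le_log (Nat.cast_pos.2 (by omega)) (Nat.cast_le.2 (Nat.le_succ m))
    have key : ∑ p ∈ primesUpTo (m + 1), a p / p =
        (∑ p ∈ primesUpTo m, a p / p) + (D (m + 1) - D m) / Real.log (m + 1 : ℕ) := by
      rw [hD]
      dsimp only
      simp only [ErdosKac.primesUpTo, sum_filter]
      rw [sum_Icc_succ_top (by omega), sum_Icc_succ_top (by omega), add_sub_cancel_left]
      congr 1
      split_ifs
      · field_simp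
      · rw [zero_div]
    rw [key]
    have h2 := mul_nonneg (sub_nonneg.2 (hD ▸ h m hm : D m ≤ K))
      (sub_nonneg.2 (one_div_le_one_div_of_le h0 hmono))
    rw [sub_div]
    linarith [show D m / Real.log m = D m * (1 / Real.log m) from div_eq_mul_one_div _ _,
      show D m / Real.log (m + 1 : ℕ) = D m * (1 / Real.log (m + 1 : ℕ)) from
        div_eq_mul_one_div _ _]

theorem exists_sum_sqInd_prime_le : ∃ C : ℝ, ∀ x : ℕ, 2 ≤ x →
    ∑ p ∈ primesUpTo x, sqInd p / p ≤ Real.log (Real.log x) / 2 + C := by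
  obtain ⟨C₁, hC₁⟩ := ErdosKac.exists_abs_sum_log_div_sub_le
  obtain ⟨C₂, hC₂⟩ := LandauSquares.exists_abs_sum_weight_div_sub_le
  obtain ⟨C₃, hC₃⟩ := ErdosKac.exists_abs_recipSum_sub_le
  refine ⟨(C₂ + C₁ / 2) / Real.log 2 + C₃ / 2, fun x hx => ?_⟩
  have hD : ∀ n, 2 ≤ n → ∑ p ∈ primesUpTo n, (sqInd p - 1 / 2) * (Real.log p / p) ≤
      C₂ + C₁ / 2 := fun n hn => by
    have hw : ∑ p ∈ primesUpTo n, sqInd p * (Real.log p / p) ≤ ∑ d ∈ Icc 1 n, weight d / d := by
      refine le_trans (le_of_eq (sum_congr rfl fun p hp => ?_))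
        (sum_le_sum_of_subset_of_nonneg (filter_subset Nat.Prime _) fun d _ _ =>
          div_nonneg (weight_nonneg d) (Nat.cast_nonneg d))
      have hpp := (mem_primesUpTo.1 hp).1
      have h1 := sqInd_prime_pow hpp 1
      have h2 := weight_prime_pow hpp one_ne_zero
      rw [pow_one] at h1 h2
      rw [h1, h2]
      by_cases h4 : p % 4 = 3 <;> simp [h4]
    simp only [sub_mul, sum_sub_distrib, ← mul_sum]
    have ha := (abs_le.1 (hC₁ n (by omega))).1
    have hb := (abs_le.1 (hC₂ n (by omega))).2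
    linarith
  have h := sum_div_prime_le hD hx
  simp only [sub_div, sum_sub_distrib] at h
  rw [show ∑ p ∈ primesUpTo x, (1 / 2 : ℝ) / p = recipSum x / 2 by
    rw [recipSum, sum_div]; exact sum_congr rfl fun p _ => by ring] at h
  linarith [(abs_le.1 (hC₃ x hx)).2]

theorem exists_two_squares_pair_le : ∃ C : ℝ, 0 < C ∧ ∀ x : ℕ, 2 ≤ x →
    ∑ n ∈ Icc 1 x, sqInd n * sqInd (n + 1) ≤ C * x / Real.log x := by
  obtain ⟨C, hC0, hC⟩ := exists_correlation_le (A := 1) (B := 1) le_rfl zero_le_one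
  obtain ⟨K, hK⟩ := exists_sum_sqInd_prime_le
  refine ⟨C * Real.exp (2 * K), mul_pos hC0 (Real.exp_pos _), fun x hx =>
    (hC sqInd sqInd isTame_sqInd isTame_sqInd x hx).trans ?_⟩
  have hlog : 0 < Real.log x := Real.log_pos (Nat.one_lt_cast.2 hx)
  have he : Real.exp (∑ p ∈ primesUpTo x, (sqInd p + sqInd p) / p) ≤
      Real.exp (2 * K) * Real.log x := by
    rw [← Real.exp_log hlog, ← Real.exp_add, Real.exp_le_exp]
    simp only [add_div, sum_add_distrib]
    linarith [hK x hx]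
  refine (mul_le_mul_of_nonneg_left he (by positivity)).trans (le_of_eq ?_)
  field_simp

open scoped Classical in
theorem exists_card_two_squares_pair_le : ∃ C : ℝ, 0 < C ∧ ∀ x : ℕ, 2 ≤ x →
    (((Icc 1 x).filter fun n : ℕ => (∃ a b : ℕ, n = a ^ 2 + b ^ 2) ∧
      ∃ a b : ℕ, n + 1 = a ^ 2 + b ^ 2).card : ℝ) ≤ C * x / Real.log x := by
  obtain ⟨C, hC0, hC⟩ := exists_two_squares_pair_le
  refine ⟨C, hC0, fun x hx => le_trans (le_of_eq ?_) (hC x hx)⟩
  rw [card_filter, Nat.cast_sum]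
  refine sum_congr rfl fun n hn => ?_
  have h0 : n ≠ 0 := by
    have := (mem_Icc.1 hn).1
    omega
  simp only [← evenExp_iff_exists, sqInd, ne_eq, h0, not_false_eq_true, true_and,
    Nat.add_eq_zero_iff, one_ne_zero, and_false, ite_zero_mul_ite_zero, one_mul, Nat.cast_ite,
    Nat.cast_one, Nat.cast_zero]

end FA.MultiplicativeCorrelations

end
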