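import Fermat.Agent.MultiplicativeCorrelations.Euler
import Mathlib.Analysis.SpecialFunctions.Pow.Asymptotics

/-!
# Correlations of multiplicative functions at consecutive integers

A bound of Nair's type: `∑_{n ≤ x} f n g (n + 1) ≪ x / (log x) ^ 2 exp (∑_{p ≤ x} (f p + g p) / p)`.
At the first level where the parts of `n` and `n + 1` are small the rest costs `A ^ (O (2 ^ j))`,
which a tilt with a high enough multiple of the exponent outweighs.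
-/

set_option autoImplicit false

noncomputable section

namespace FA.MultiplicativeCorrelations

open Finset
open FA.ErdosKac (primesUpTo mem_primesUpTo)
open FA.EqualDivisorsUpper

variable {A B : ℝ}

open Classical in
/-- The choices of `a`, `b`, `d₁`, `d₂` at a level. -/
def levelChoices (I x i : ℕ) : Finset ((ℕ × ℕ) × (ℕ × ℕ)) :=
  (pairs (primesUpTo (level i)) (x + 1) ×ˢ
    pairs (primesUpTo (level (i + 1)) \ primesUpTo (level i)) (x + 1)).filter fun q =>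
      (q.1.1 * q.2.1).Coprime (q.1.2 * q.2.2) ∧ (q.1.1 * q.2.1 * (q.1.2 * q.2.2)) ^ 2 ≤ x ∧
      (i = I ∨ x < (q.1.1 * q.2.1 * (q.1.2 * q.2.2)) ^ 8)

theorem log_le_of_level {I x : ℕ} (hx : 1 ≤ x) (hI' : Nat.log 2 x < 320 * 2 ^ I) :
    Real.log x ≤ 320 * 2 ^ I := by
  have h : (x : ℝ) ≤ 2 ^ (320 * 2 ^ I) := by
    exact_mod_cast ((Nat.lt_pow_succ_log_self one_lt_two x).le.trans
      (Nat.pow_le_pow_right two_pos hI'))
  refine (Real.log_le_log (Nat.cast_pos.2 hx) h).trans ?_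
  rw [Real.log_pow]
  push_cast
  exact mul_le_of_le_one_right (by positivity) (by linarith [Real.log_two_lt_d9])

theorem part_dvd_part {S : Finset ℕ} {n m : ℕ} (hn : 0 < n) (hm : m ∣ n)
    (h : m.primeFactors ⊆ S) : m ∣ part S n := by
  have hm0 := Nat.pos_of_dvd_of_pos hm hn
  conv_lhs => rw [← part_eq_self hm0 h]
  exact prod_dvd_prod_of_dvd _ _ fun p _ => pow_dvd_pow p
    ((Nat.factorization_le_iff_dvd hm0.ne' hn.ne').2 hm p)

theorem exists_level_sum_le (hA : 1 ≤ A) (hB : 0 ≤ B) {T : ℕ} (hT : 8 * A ^ 640 ≤ (32 : ℝ) ^ T) :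
    ∃ C : ℝ, 0 < C ∧ ∀ f g : ℕ → ℝ, IsTame A B f → IsTame A B g → ∀ I x i : ℕ, i ≤ I →
    2 * T ≤ 2 ^ i → level I ^ 160 ≤ x → Nat.log 2 x < 320 * 2 ^ I →
    ∑ q ∈ levelChoices I x i, f q.1.1 * g q.1.2 * A ^ (640 * 2 ^ (I - i)) *
        ((roughPair x (q.1.1 * q.2.1) (q.1.2 * q.2.2) (level i)).card : ℝ) ≤
      C * x / Real.log x ^ 2 * Real.exp (∑ p ∈ primesUpTo x, (f p + g p) / p) *
        (1 / 2) ^ (I - i) := by
  classical
  obtain ⟨C₁, hC₁0, hC₁⟩ := exists_roughPair_le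
  obtain ⟨C₂, hC₂0, hC₂⟩ := exists_euler_le (zero_le_one.trans hA) hB T
  obtain ⟨C₃, hC₃0, hC₃⟩ := exists_band_tilt_le T
  refine ⟨C₁ * 1024 ^ T * C₂ * C₃ * 320 ^ 2, by positivity,
    fun f g hf hg I x i hi hT' hI hI' => ?_⟩
  obtain ⟨j, hj⟩ : ∃ j, j = I - i := ⟨_, rfl⟩
  obtain ⟨P, hPdef⟩ : ∃ P, P = primesUpTo (level i) := ⟨_, rfl⟩
  obtain ⟨K, hK⟩ : ∃ K, K = A ^ (640 * 2 ^ j) := ⟨_, rfl⟩
  have hK0 : 0 ≤ K := hK ▸ pow_nonneg (zero_le_one.trans hA) _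
  have hlI : level i ≤ level I :=
    Nat.pow_le_pow_right two_pos (Nat.pow_le_pow_right two_pos hi)
  have hzx : level i ^ 160 ≤ x := (Nat.pow_le_pow_left hlI _).trans hI
  have hlx : level i ≤ x := (Nat.le_self_pow (by norm_num) _).trans hzx
  have hx2 : 2 ≤ x := (two_le_level i).trans hlx
  have hxr : (0 : ℝ) < x := Nat.cast_pos.2 (by omega)
  obtain ⟨X, hX⟩ : ∃ X, X = ((x : ℝ) ^ (tilt i / 8)) ^ T := ⟨_, rfl⟩
  have hX0 : 0 < X := hX ▸ pow_pos (Real.rpow_pos_of_pos hxr _) _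
  obtain ⟨t, ht⟩ : ∃ t, t = (T : ℝ) * tilt i := ⟨_, rfl⟩
  obtain ⟨w, hw⟩ : ∃ w : ℕ × ℕ → ℝ, w = fun q => f q.1 * g q.2 *
      ((∏ p ∈ P, localDensity (q.1 * q.2) p) * ((q.1 * q.2 : ℕ) : ℝ) ^ (t - 1)) := ⟨_, rfl⟩
  obtain ⟨v, hv⟩ : ∃ v : ℕ × ℕ → ℝ, v = fun q => ((q.1 * q.2 : ℕ) : ℝ) ^ (t - 1) := ⟨_, rfl⟩
  have hw0 : ∀ q, 0 ≤ w q := fun q => by
    rw [hw]
    exact mul_nonneg (mul_nonneg (hf.nonneg _) (hg.nonneg _))
      (mul_nonneg (prod_nonneg fun p hp => localDensity_nonneg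
        (mem_primesUpTo.1 (hPdef ▸ hp)).1 _) (Real.rpow_nonneg (Nat.cast_nonneg _) _))
  have hv0 : ∀ q, 0 ≤ v q := fun q => by rw [hv]; exact Real.rpow_nonneg (Nat.cast_nonneg _) _
  rw [← hj, ← hK]
  have hterm : ∀ q ∈ levelChoices I x i, f q.1.1 * g q.1.2 * K *
      ((roughPair x (q.1.1 * q.2.1) (q.1.2 * q.2.2) (level i)).card : ℝ) ≤
        C₁ * 1024 ^ T * x / X * K * (w q.1 * v q.2) := by
    intro q hq
    obtain ⟨hmem, hco, hsq, htilt⟩ := mem_filter.1 hq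
    obtain ⟨hab, hdd⟩ := mem_product.1 hmem
    obtain ⟨⟨ha, -⟩, ⟨hb, -⟩, -⟩ := mem_pairs.1 hab
    obtain ⟨⟨hc, -⟩, ⟨hd, -⟩, -, hcB, hdB⟩ := mem_pairs.1 hdd
    refine (mul_le_mul_of_nonneg_left (hC₁ x _ _ (level i) (Nat.mul_pos ha hc)
      (Nat.mul_pos hb hd) hco (two_le_level i) hzx hsq)
      (mul_nonneg (mul_nonneg (hf.nonneg _) (hg.nonneg _)) hK0)).trans ?_
    have hloc : ∀ p ∈ P, localDensity (q.1.1 * q.2.1 * (q.1.2 * q.2.2)) p =
        localDensity (q.1.1 * q.1.2) p := fun p hp => by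
      have hpp := (mem_primesUpTo.1 (hPdef ▸ hp)).1
      have hnot : ∀ m, 0 < m →
          m.primeFactors ⊆ primesUpTo (level (i + 1)) \ primesUpTo (level i) → ¬ p ∣ m :=
        fun m hm hsub hd => (mem_sdiff.1 (hsub (Nat.mem_primeFactors.2 ⟨hpp, hd, hm.ne'⟩))).2
          (hPdef ▸ hp)
      simp only [localDensity, hpp.dvd_mul, hnot _ hc hcB, hnot _ hd hdB, or_false]
    rw [← hPdef, prod_congr rfl hloc]
    obtain ⟨m, hm⟩ : ∃ m, m = q.1.1 * q.2.1 * (q.1.2 * q.2.2) := ⟨_, rfl⟩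
    obtain ⟨L, hL⟩ : ∃ L, L = ∏ p ∈ P, localDensity (q.1.1 * q.1.2) p := ⟨_, rfl⟩
    have hL0 : 0 ≤ L := hL ▸ prod_nonneg fun p hp =>
      localDensity_nonneg (mem_primesUpTo.1 (hPdef ▸ hp)).1 _
    rw [← hm] at htilt ⊢
    rw [← hL]
    have hm1 : 1 ≤ m := hm ▸ Nat.mul_pos (Nat.mul_pos ha hc) (Nat.mul_pos hb hd)
    have hm0 : (0 : ℝ) < m := Nat.cast_pos.2 hm1
    have hg' : (1 : ℝ) ≤ 1024 ^ T * (m : ℝ) ^ t / X := by
      have h := one_le_pow₀ (n := T)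
        ((one_le_tilt_gain hm1 hI' htilt).resolve_right (by omega))
      rwa [div_pow, mul_pow, ← Real.rpow_mul_natCast hm0.le, mul_comm (tilt i), ← ht, ← hX] at h
    have e : w q.1 * v q.2 = f q.1.1 * g q.1.2 * (L * (m : ℝ) ^ t / m) := by
      rw [hw, hv]
      dsimp only
      rw [← hL, mul_assoc (f q.1.1 * g q.1.2), mul_assoc L, ← Real.mul_rpow (Nat.cast_nonneg _)
        (Nat.cast_nonneg _), ← Nat.cast_mul,
        show q.1.1 * q.1.2 * (q.2.1 * q.2.2) = m by rw [hm]; ring,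
        Real.rpow_sub hm0, Real.rpow_one, mul_div_assoc]
    rw [e]
    have h0 : 0 ≤ f q.1.1 * g q.1.2 * K * (C₁ * x / m * L) :=
      mul_nonneg (mul_nonneg (mul_nonneg (hf.nonneg _) (hg.nonneg _)) hK0) (by positivity)
    calc f q.1.1 * g q.1.2 * K * (C₁ * x / m * L)
        ≤ f q.1.1 * g q.1.2 * K * (C₁ * x / m * L) * (1024 ^ T * (m : ℝ) ^ t / X) :=
          le_mul_of_one_le_right h0 hg'
      _ = _ := by ring
  refine (sum_le_sum hterm).trans ?_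
  rw [← mul_sum]
  have hsub : levelChoices I x i ⊆ pairs P (x + 1) ×ˢ
      pairs (primesUpTo (level (i + 1)) \ primesUpTo (level i)) (x + 1) := fun q hq =>
    hPdef ▸ (mem_filter.1 hq).1
  obtain ⟨S, hS⟩ : ∃ S, S = Real.exp (∑ p ∈ primesUpTo x, (f p + g p) / p) := ⟨_, rfl⟩
  have hsum : ∑ q ∈ levelChoices I x i, w q.1 * v q.2 ≤ C₂ * S / 4 ^ (i + 1) * C₃ := by
    refine (sum_le_sum_of_subset_of_nonneg hsub fun q _ _ =>
      mul_nonneg (hw0 _) (hv0 _)).trans ?_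
    rw [sum_product, ← sum_mul_sum]
    refine mul_le_mul ?_ (hv ▸ ht ▸ hC₃ i (x + 1) hT') (sum_nonneg fun q _ => hv0 q)
      (div_nonneg (mul_nonneg hC₂0.le (hS ▸ Real.exp_nonneg _)) (by positivity))
    refine (hw ▸ ht ▸ hPdef ▸ hC₂ f g hf hg i (x + 1) hT' :
      ∑ q ∈ pairs P (x + 1), w q ≤
        C₂ * Real.exp (∑ p ∈ P, (f p + g p) / p) / 4 ^ (i + 1)).trans ?_
    refine div_le_div_of_nonneg_right (mul_le_mul_of_nonneg_left (hS ▸ Real.exp_le_exp.2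
      (sum_le_sum_of_subset_of_nonneg (fun p hp => ?_) fun p _ _ =>
        div_nonneg (add_nonneg (hf.nonneg p) (hg.nonneg p)) (Nat.cast_nonneg p))) hC₂0.le)
      (by positivity)
    rw [hPdef, mem_primesUpTo] at hp
    exact mem_primesUpTo.2 ⟨hp.1, hp.2.trans hlx⟩
  rw [← hS]
  refine (mul_le_mul_of_nonneg_left hsum (by positivity)).trans ?_
  have hlog : 0 < Real.log x := Real.log_pos (Nat.one_lt_cast.2 hx2)
  have hl2 : Real.log x ^ 2 ≤ 320 ^ 2 * 4 ^ (I + 1) := by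
    refine (pow_le_pow_left₀ hlog.le (log_le_of_level (by omega) hI') 2).trans ?_
    rw [mul_pow, ← pow_mul, pow_mul', show (2 : ℝ) ^ 2 = 4 by norm_num]
    exact mul_le_mul_of_nonneg_left (pow_le_pow_right₀ (by norm_num) (Nat.le_succ I))
      (by positivity)
  have key : K * 8 ^ j ≤ X := by
    refine le_trans ?_ (hX ▸ hj ▸ pow_le_pow_left₀ (by positivity) (pow_le_rpow_tilt hi hI) T)
    rw [hK, pow_mul A, pow_right_comm (32 : ℝ), mul_comm]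
    refine le_trans ?_ (pow_le_pow_left₀ (by positivity) hT (2 ^ j))
    rw [mul_pow]
    exact mul_le_mul_of_nonneg_right
      (pow_le_pow_right₀ (by norm_num) Nat.lt_two_pow_self.le) (by positivity)
  have hS0 : 0 ≤ S := hS ▸ Real.exp_nonneg _
  have hgain : K / (X * 4 ^ (i + 1)) ≤ 320 ^ 2 / Real.log x ^ 2 * (1 / 2) ^ j := by
    rw [div_pow, one_pow, ← mul_div_assoc, mul_one, div_div,
      div_le_div_iff₀ (by positivity) (by positivity)]
    calc K * (Real.log x ^ 2 * 2 ^ j) ≤ K * (320 ^ 2 * 4 ^ (I + 1) * 2 ^ j) :=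
          mul_le_mul_of_nonneg_left (mul_le_mul_of_nonneg_right hl2 (by positivity)) hK0
      _ = 320 ^ 2 * 4 ^ (i + 1) * (K * 8 ^ j) := by
          rw [show I + 1 = i + 1 + j by omega, pow_add (4 : ℝ) (i + 1) j,
            show (8 : ℝ) = 4 * 2 by norm_num, mul_pow (4 : ℝ) 2 j]
          ring
      _ ≤ 320 ^ 2 * 4 ^ (i + 1) * X := mul_le_mul_of_nonneg_left key (by positivity)
      _ = _ := by ring
  calc C₁ * 1024 ^ T * x / X * K * (C₂ * S / 4 ^ (i + 1) * C₃)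
      = C₁ * 1024 ^ T * x * C₂ * S * C₃ * (K / (X * 4 ^ (i + 1))) := by
        field_simp
    _ ≤ C₁ * 1024 ^ T * x * C₂ * S * C₃ * (320 ^ 2 / Real.log x ^ 2 * (1 / 2) ^ j) :=
        mul_le_mul_of_nonneg_left hgain (by positivity)
    _ = _ := by ring

theorem exists_cover {I x n L T : ℕ} (hI : level I ^ 160 ≤ x)
    (hI' : Nat.log 2 x < 320 * 2 ^ I) (hTI : 2 * T ≤ I) (hL : L = level (2 * T))
    (hn : n ∈ Icc 1 x)
    (hnot : part (primesUpTo L) n ^ 16 ≤ x ∧ part (primesUpTo L) (n + 1) ^ 16 ≤ x) :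
    ∃ i, 2 * T ≤ i ∧ i ≤ I ∧ ∃ q ∈ levelChoices I x i,
      n ∈ roughPair x (q.1.1 * q.2.1) (q.1.2 * q.2.2) (level i) ∧
      ∀ f g : ℕ → ℝ, IsTame A B f → IsTame A B g → 1 ≤ A →
        f n * g (n + 1) ≤ f q.1.1 * g q.1.2 * A ^ (640 * 2 ^ (I - i)) := by
  classical
  have hn1 : 0 < n := (mem_Icc.1 hn).1
  have hLp : ∀ p ∈ primesUpTo L, p.Prime := fun p hp => (mem_primesUpTo.1 hp).1
  have hle : ∀ m m', m ≤ part (primesUpTo L) n → m' ≤ part (primesUpTo L) (n + 1) →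
      (m * m') ^ 8 ≤ x := fun m m' h h' => by
    refine le_of_pow_le_pow_left₀ two_ne_zero (Nat.zero_le x) ?_
    rw [← pow_mul, mul_pow, sq]
    exact Nat.mul_le_mul ((Nat.pow_le_pow_left h _).trans hnot.1)
      ((Nat.pow_le_pow_left h' _).trans hnot.2)
  have hL2 : 2 ≤ L := hL ▸ two_le_level _
  have hsub2 : ∀ p, p ∈ primesUpTo 2 → p ∈ primesUpTo L := fun p hp =>
    mem_primesUpTo.2 ⟨(mem_primesUpTo.1 hp).1, (mem_primesUpTo.1 hp).2.trans hL2⟩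
  have h2 : ∀ m, 0 < m → part (primesUpTo 2) m ≤ part (primesUpTo L) m := fun m hm => by
    have hp2 : ∀ p ∈ primesUpTo 2, p.Prime := fun p hp => (mem_primesUpTo.1 hp).1
    exact Nat.le_of_dvd (part_pos hLp m) (part_dvd_part hm (part_dvd hp2 hm)
      fun p hp => hsub2 p (primeFactors_part_subset hp2 m hp))
  obtain ⟨i, hi, a, b, d₁, d₂, ha, hb, hab, hd, hr₁, hr₂, hco, hsq, htilt, hr⟩ :=
    exists_level hI hI' hn (by
      refine le_trans (Nat.pow_le_pow_right ?_ (by norm_num : 2 ≤ 8))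
        (hle _ _ (h2 n hn1) (h2 _ n.succ_pos))
      exact Nat.mul_pos (part_pos (fun p hp => (mem_primesUpTo.1 hp).1) _)
        (part_pos (fun p hp => (mem_primesUpTo.1 hp).1) _))
  have hP : ∀ p ∈ primesUpTo (level i), p.Prime := fun p hp => (mem_primesUpTo.1 hp).1
  obtain ⟨-, hAn, hBn, -⟩ := mem_filter.1 hr
  have hiT : 2 * T ≤ i := by
    by_contra hlt
    rcases htilt with h | h
    · omega
    refine absurd h (not_lt.2 (hle _ _ ?_ ?_))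
    all_goals
      obtain ⟨⟨ha0, -⟩, ⟨hb0, -⟩, -, haP, hbP⟩ := mem_pairs.1 hab
      obtain ⟨⟨hc0, -⟩, ⟨hd0, -⟩, -, hcP, hdP⟩ := mem_pairs.1 hd
      refine Nat.le_of_dvd (part_pos hLp _) (part_dvd_part (by omega) (by assumption) ?_)
      rw [Nat.primeFactors_mul (by omega) (by omega)]
      refine union_subset (fun p hp => ?_) fun p hp => ?_
    all_goals
      first
        | have h1 := mem_primesUpTo.1 (haP hp)
        | have h1 := mem_primesUpTo.1 (hbP hp)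
        | have h1 := mem_primesUpTo.1 (mem_sdiff.1 (hcP hp)).1
        | have h1 := mem_primesUpTo.1 (mem_sdiff.1 (hdP hp)).1
      refine mem_primesUpTo.2 ⟨h1.1, h1.2.trans (hL ▸ ?_)⟩
      exact Nat.pow_le_pow_right two_pos (Nat.pow_le_pow_right two_pos (by omega))
  refine ⟨i, hiT, hi, ((a, b), (d₁, d₂)), mem_filter.2 ⟨mem_product.2 ⟨hab, hd⟩, hco, hsq, htilt⟩,
    hr, fun f g hf hg hA => ?_⟩
  have e1 := (hf.le_part hP hn1).trans (mul_le_mul_of_nonneg_left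
    (pow_le_pow_right₀ hA hr₁) (hf.nonneg _))
  have e2 := (hg.le_part hP n.succ_pos).trans (mul_le_mul_of_nonneg_left
    (pow_le_pow_right₀ hA hr₂) (hg.nonneg _))
  rw [← ha] at e1
  rw [← hb] at e2
  refine (mul_le_mul e1 e2 (hg.nonneg _)
    (mul_nonneg (hf.nonneg _) (pow_nonneg (zero_le_one.trans hA) _))).trans (le_of_eq ?_)
  rw [mul_mul_mul_comm, ← pow_add, show 640 * 2 ^ (I - i) =
    320 * 2 ^ (I - i) + 320 * 2 ^ (I - i) by ring]

/-- **The bound of Nair's type.** -/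
theorem exists_correlation_le (hA : 1 ≤ A) (hB : 0 ≤ B) : ∃ C : ℝ, 0 < C ∧
    ∀ f g : ℕ → ℝ, IsTame A B f → IsTame A B g → ∀ x : ℕ, 2 ≤ x →
    ∑ n ∈ Icc 1 x, f n * g (n + 1) ≤
      C * x / Real.log x ^ 2 * Real.exp (∑ p ∈ primesUpTo x, (f p + g p) / p) := by
  classical
  obtain ⟨T, hT⟩ := pow_unbounded_of_one_lt (8 * A ^ 640) (show (1 : ℝ) < 32 by norm_num)
  obtain ⟨C, hC0, hC⟩ := exists_level_sum_le hA hB hT.le
  obtain ⟨L, hL⟩ : ∃ L, L = level (2 * T) := ⟨_, rfl⟩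
  obtain ⟨D, hD0, hD⟩ := exists_card_smooth_large_le L
  obtain ⟨M, hM⟩ : ∃ M, M = 320 * 2 ^ (2 * T) + 160 := ⟨_, rfl⟩
  refine ⟨2 * C + D * (B ^ 2 * 2) * 128 ^ 2 + (B ^ 2 * 2 ^ M * (M : ℝ) ^ 2) + 1, by positivity,
    fun f g hf hg x hx => ?_⟩
  obtain ⟨S, hS⟩ : ∃ S, S = Real.exp (∑ p ∈ primesUpTo x, (f p + g p) / p) := ⟨_, rfl⟩
  have hS1 : 1 ≤ S := hS ▸ Real.one_le_exp (sum_nonneg fun p _ =>
    div_nonneg (add_nonneg (hf.nonneg p) (hg.nonneg p)) (Nat.cast_nonneg p))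
  rw [← hS]
  have hx1 : (1 : ℝ) ≤ x := Nat.one_le_cast.2 (by omega)
  have hx0 : (0 : ℝ) < x := by linarith
  have hlog : 0 < Real.log x := Real.log_pos (Nat.one_lt_cast.2 hx)
  obtain ⟨R, hR⟩ : ∃ R, R = (x : ℝ) / Real.log x ^ 2 := ⟨_, rfl⟩
  have hR0 : 0 ≤ R := by rw [hR]; positivity
  have hprod : ∀ n ∈ Icc 1 x, f n * g (n + 1) ≤ B ^ 2 * 2 * (x : ℝ) ^ (1 / 64 : ℝ) := by
    intro n hn
    obtain ⟨h1, h2⟩ := mem_Icc.1 hn
    have hb : ∀ m : ℕ, 0 < m → m ≤ x + 1 →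
        (m : ℝ) ^ (1 / 128 : ℝ) ≤ (2 * (x : ℝ)) ^ (1 / 128 : ℝ) := fun m _ h3 =>
      Real.rpow_le_rpow (Nat.cast_nonneg m) (le_trans (Nat.cast_le.2 h3) (by
        push_cast; linarith)) (by norm_num)
    refine (mul_le_mul ((hf.growth n h1).trans (mul_le_mul_of_nonneg_left (hb n h1 (by omega)) hB))
      ((hg.growth (n + 1) n.succ_pos).trans
        (mul_le_mul_of_nonneg_left (hb _ n.succ_pos (by omega)) hB))
      (hg.nonneg _) (by positivity)).trans ?_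
    rw [mul_mul_mul_comm, ← Real.rpow_add (by positivity), ← sq,
      show (1 / 128 : ℝ) + 1 / 128 = 1 / 64 by norm_num,
      Real.mul_rpow zero_le_two hx0.le, ← mul_assoc]
    gcongr
    calc (2 : ℝ) ^ (1 / 64 : ℝ) ≤ (2 : ℝ) ^ (1 : ℝ) :=
          Real.rpow_le_rpow_of_exponent_le one_le_two (by norm_num)
      _ = 2 := Real.rpow_one 2
  rcases lt_or_ge (Nat.log 2 x) M with hsmall | hbig
  · have hxM : (x : ℝ) ≤ 2 ^ M := by
      exact_mod_cast (Nat.lt_pow_succ_log_self one_lt_two x).le.trans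
        (Nat.pow_le_pow_right two_pos hsmall)
    have hlM : Real.log x ≤ M := by
      refine (Real.log_le_log hx0 hxM).trans ?_
      rw [Real.log_pow]
      exact mul_le_of_le_one_right (Nat.cast_nonneg M) (by linarith [Real.log_two_lt_d9])
    have h1 : ∀ n ∈ Icc 1 x, f n * g (n + 1) ≤ B ^ 2 * 2 ^ M := fun n hn => by
      obtain ⟨h1, h2⟩ := mem_Icc.1 hn
      have hb : ∀ m : ℕ, 0 < m → m ≤ x + 1 → (m : ℝ) ^ (1 / 128 : ℝ) ≤
          ((2 : ℝ) ^ M) ^ (1 / 2 : ℝ) := fun m hm h3 => by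
        refine (Real.rpow_le_rpow_of_exponent_le (Nat.one_le_cast.2 hm)
          (by norm_num : (1 / 128 : ℝ) ≤ 1 / 2)).trans (Real.rpow_le_rpow (Nat.cast_nonneg m) ?_
            (by norm_num))
        have : m ≤ 2 ^ M := h3.trans ((Nat.lt_pow_succ_log_self one_lt_two x).trans_le
          (Nat.pow_le_pow_right two_pos hsmall))
        exact_mod_cast this
      refine (mul_le_mul ((hf.growth n h1).trans (mul_le_mul_of_nonneg_left (hb n h1 (by omega))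
        hB)) ((hg.growth (n + 1) n.succ_pos).trans
          (mul_le_mul_of_nonneg_left (hb _ n.succ_pos (by omega)) hB))
        (hg.nonneg _) (by positivity)).trans (le_of_eq ?_)
      rw [mul_mul_mul_comm, ← Real.rpow_add (by positivity)]
      norm_num [sq]
    have h2 : (x : ℝ) ≤ (M : ℝ) ^ 2 * R := by
      rw [hR, ← mul_div_assoc, le_div_iff₀ (by positivity), mul_comm _ (x : ℝ)]
      exact mul_le_mul_of_nonneg_left (pow_le_pow_left₀ hlog.le hlM 2) hx0.le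
    calc ∑ n ∈ Icc 1 x, f n * g (n + 1) ≤ (x : ℝ) * (B ^ 2 * 2 ^ M) := by
          refine (sum_le_card_nsmul _ _ _ h1).trans (le_of_eq ?_)
          rw [Nat.card_Icc, nsmul_eq_mul, Nat.add_sub_cancel]
      _ ≤ (M : ℝ) ^ 2 * R * (B ^ 2 * 2 ^ M) := mul_le_mul_of_nonneg_right h2 (by positivity)
      _ ≤ (2 * C + D * (B ^ 2 * 2) * 128 ^ 2 + (B ^ 2 * 2 ^ M * (M : ℝ) ^ 2) + 1) * R * 1 := by
          nlinarith [mul_nonneg hR0 (show (0 : ℝ) ≤ 2 * C + D * (B ^ 2 * 2) * 128 ^ 2 + 1 by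
            positivity)]
      _ ≤ _ := by
          rw [mul_div_assoc, ← hR]
          exact mul_le_mul_of_nonneg_left hS1 (by positivity)
  obtain ⟨I, hI⟩ : ∃ I, I = Nat.log 2 (Nat.log 2 x / 160) := ⟨_, rfl⟩
  have hM1 : 0 < 2 ^ (2 * T) := pow_pos two_pos _
  have h0 : Nat.log 2 x / 160 ≠ 0 := by omega
  have h1' : 2 ^ I ≤ Nat.log 2 x / 160 := hI ▸ Nat.pow_log_le_self 2 h0
  have h2' : Nat.log 2 x / 160 < 2 ^ (I + 1) := hI ▸ Nat.lt_pow_succ_log_self one_lt_two _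
  have hI1 : level I ^ 160 ≤ x := by
    rw [level, ← pow_mul]
    exact (Nat.pow_le_pow_right two_pos (by omega : 2 ^ I * 160 ≤ Nat.log 2 x)).trans
      (Nat.pow_log_le_self 2 (by omega))
  have hI2 : Nat.log 2 x < 320 * 2 ^ I := by rw [pow_succ] at h2'; omega
  have hTI : 2 * T ≤ I := by
    refine (Nat.pow_le_pow_iff_right one_lt_two).1 (Nat.le_of_mul_le_mul_left ?_
      (show 0 < 320 by norm_num))
    omega
  obtain ⟨E, hE⟩ : ∃ E, E = (Icc 1 x).filter fun n =>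
      x < part (primesUpTo L) n ^ 16 ∨ x < part (primesUpTo L) (n + 1) ^ 16 := ⟨_, rfl⟩
  obtain ⟨Q, hQ⟩ : ∃ Q, Q = (Icc (2 * T) I).sigma (levelChoices I x) := ⟨_, rfl⟩
  obtain ⟨W, hW⟩ : ∃ W : (Σ _ : ℕ, (ℕ × ℕ) × (ℕ × ℕ)) → ℝ,
      W = fun k => f k.2.1.1 * g k.2.1.2 * A ^ (640 * 2 ^ (I - k.1)) := ⟨_, rfl⟩
  have hW0 : ∀ k, 0 ≤ W k := fun k => by
    rw [hW]
    exact mul_nonneg (mul_nonneg (hf.nonneg _) (hg.nonneg _)) (pow_nonneg (zero_le_one.trans hA) _)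
  obtain ⟨U, hU⟩ : ∃ U : (Σ _ : ℕ, (ℕ × ℕ) × (ℕ × ℕ)) → Finset ℕ, U = fun k =>
      roughPair x (k.2.1.1 * k.2.2.1) (k.2.1.2 * k.2.2.2) (level k.1) := ⟨_, rfl⟩
  have hpt : ∀ n ∈ Icc 1 x \ E,
      f n * g (n + 1) ≤ ∑ k ∈ Q.filter (fun k => n ∈ U k), W k := by
    intro n hn
    obtain ⟨hnI, hnE⟩ := mem_sdiff.1 hn
    rw [hE, mem_filter, not_and, not_or, not_lt, not_lt] at hnE
    obtain ⟨i, hiT, hiI, q, hq, hr, hfg⟩ := exists_cover hI1 hI2 hTI hL hnI (hnE hnI)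
    refine le_trans ?_ (single_le_sum (fun k _ => hW0 k)
      (mem_filter.2 ⟨hQ ▸ mem_sigma.2 ⟨mem_Icc.2 ⟨hiT, hiI⟩, hq⟩, ?_⟩ :
        (⟨i, q⟩ : Σ _ : ℕ, (ℕ × ℕ) × (ℕ × ℕ)) ∈ Q.filter fun k => n ∈ U k))
    · rw [hW]
      exact hfg f g hf hg hA
    · rw [hU]
      exact hr
  have hmain : ∑ n ∈ Icc 1 x \ E, f n * g (n + 1) ≤ 2 * C * R * S := by
    refine (sum_le_sum hpt).trans ?_
    rw [sum_comm' (t' := Q) (s' := fun k => (Icc 1 x \ E).filter fun n => n ∈ U k)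
      (fun n k => by simp only [mem_filter]; tauto)]
    refine (sum_le_sum (g := fun k => W k * ((U k).card : ℝ)) fun k _ => ?_).trans ?_
    · rw [sum_const, nsmul_eq_mul, mul_comm]
      exact mul_le_mul_of_nonneg_left (Nat.cast_le.2 (card_le_card fun n hn =>
        (mem_filter.1 hn).2)) (hW0 k)
    rw [hQ, sum_sigma, hW, hU]
    refine (sum_le_sum fun i hi => hC f g hf hg I x i (mem_Icc.1 hi).2
      ((mem_Icc.1 hi).1.trans Nat.lt_two_pow_self.le) hI1 hI2).trans ?_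
    rw [← hS, ← mul_sum, mul_div_assoc C (x : ℝ), ← hR]
    have hgeo : ∑ i ∈ Icc (2 * T) I, (1 / 2 : ℝ) ^ (I - i) ≤ 2 := by
      refine (sum_le_sum_of_subset_of_nonneg (t := range (I + 1)) (fun i hi =>
        mem_range.2 (Nat.lt_succ_of_le (mem_Icc.1 hi).2)) fun i _ _ => by positivity).trans ?_
      rw [← sum_range_reflect (fun i => (1 / 2 : ℝ) ^ (I - i)) (I + 1)]
      refine (le_of_eq (sum_congr rfl fun i hi => ?_)).trans (sum_geometric_two_le (I + 1))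
      rw [mem_range] at hi
      congr 1
      omega
    refine (mul_le_mul_of_nonneg_left hgeo (by positivity)).trans (le_of_eq ?_)
    ring
  have hexc : ∑ n ∈ E, f n * g (n + 1) ≤ D * (B ^ 2 * 2) * 128 ^ 2 * R := by
    refine (sum_le_card_nsmul _ _ _ fun n hn => hprod n (mem_filter.1 (hE ▸ hn)).1).trans ?_
    rw [nsmul_eq_mul]
    refine (mul_le_mul_of_nonneg_right (hE ▸ hD x (by omega)) (by positivity)).trans ?_
    have h := Real.log_le_rpow_div hx0.le (show (0 : ℝ) < 1 / 128 by norm_num)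
    have h' : Real.log x ^ 2 ≤ 128 ^ 2 * (x : ℝ) ^ (1 / 64 : ℝ) := by
      refine (pow_le_pow_left₀ hlog.le h 2).trans (le_of_eq ?_)
      rw [div_pow, ← Real.rpow_mul_natCast hx0.le]
      norm_num
      ring
    have e : (x : ℝ) ^ (31 / 32 : ℝ) * (x : ℝ) ^ (1 / 64 : ℝ) * (x : ℝ) ^ (1 / 64 : ℝ) = x := by
      rw [← Real.rpow_add hx0, ← Real.rpow_add hx0]
      norm_num
    have h3 : (x : ℝ) ^ (31 / 32 : ℝ) * (x : ℝ) ^ (1 / 64 : ℝ) ≤ 128 ^ 2 * R := by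
      rw [hR, ← mul_div_assoc, le_div_iff₀ (by positivity)]
      refine (mul_le_mul_of_nonneg_left h' (by positivity)).trans (le_of_eq ?_)
      rw [mul_left_comm, e]
    calc D * (x : ℝ) ^ (31 / 32 : ℝ) * (B ^ 2 * 2 * (x : ℝ) ^ (1 / 64 : ℝ))
        = D * (B ^ 2 * 2) * ((x : ℝ) ^ (31 / 32 : ℝ) * (x : ℝ) ^ (1 / 64 : ℝ)) := by ring
      _ ≤ D * (B ^ 2 * 2) * (128 ^ 2 * R) := mul_le_mul_of_nonneg_left h3 (by positivity)
      _ = _ := by ring
  rw [← sum_sdiff (show E ⊆ Icc 1 x from hE ▸ filter_subset _ _), mul_div_assoc, ← hR]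
  refine (add_le_add hmain hexc).trans ?_
  have h4 := mul_le_mul_of_nonneg_left hS1
    (show 0 ≤ D * (B ^ 2 * 2) * 128 ^ 2 * R by positivity)
  nlinarith [mul_nonneg (mul_nonneg hR0 (zero_le_one.trans hS1))
    (show (0 : ℝ) ≤ B ^ 2 * 2 ^ M * (M : ℝ) ^ 2 + 1 by positivity)]

end FA.MultiplicativeCorrelations

end
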